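import Mathlib
import Fermat.Prelude.Def_FLTPrelim_FreyPackage
import Fermat.Prelude.Def_FLTPrelim_Modularity

/-!
# The integral Frey curve: divisibility, discriminant, `c₄`, semistability

Elementary facts on `FreyPackage.freyCurveInt`:
* the two integer divisions in its definition are exact;
* its base change to `ℚ` is `FreyPackage.freyCurve` (so it is an integral model);
* `Δ = (a^p b^p / 16)^2 (c^p)^2 ≠ 0`, `c₄ = a^{2p} + a^p b^p + b^{2p}`;
* it is a semistable model.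

Consequently the Frey curve is modular as soon as every semistable integral Weierstrass curve
with nonzero discriminant is (`freyCurve_isModular_of_semistable_modularity`).
-/

set_option autoImplicit false

namespace Fermat.Agent.S04.FreyIntegral

open WeierstrassCurve

/-- `a ≡ 3 mod 4`, as a divisibility statement. -/
theorem four_dvd_a_sub_three (P : FreyPackage) : (4 : ℤ) ∣ P.a - 3 := by
  have h := P.ha4
  have h3 : ((P.a - 3 : ℤ) : ZMod 4) = 0 := by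
    push_cast
    rw [h]
    decide
  exact (ZMod.intCast_zmod_eq_zero_iff_dvd (P.a - 3) 4).1 h3

theorem two_dvd_b (P : FreyPackage) : (2 : ℤ) ∣ P.b :=
  (ZMod.intCast_zmod_eq_zero_iff_dvd P.b 2).1 P.hb2

/-- `a ^ p ≡ -1 mod 4`. -/
theorem four_dvd_a_pow_add_one (P : FreyPackage) : (4 : ℤ) ∣ P.a ^ P.p + 1 := by
  obtain ⟨k, hk⟩ := four_dvd_a_sub_three P
  have ha : P.a = -1 + 4 * (k + 1) := by linarith
  have hodd := P.hp_odd
  have h1 : (4 : ℤ) ∣ P.a ^ P.p - (-1) ^ P.p := by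
    have : (4 : ℤ) ∣ P.a - (-1) := ⟨k + 1, by rw [ha]; ring⟩
    exact this.trans (sub_dvd_pow_sub_pow _ _ _)
  rw [hodd.neg_one_pow] at h1
  simpa using h1

/-- `32 ∣ b ^ p`. -/
theorem thirtytwo_dvd_b_pow (P : FreyPackage) : (32 : ℤ) ∣ P.b ^ P.p := by
  have h2 : (2 : ℤ) ^ 5 ∣ P.b ^ 5 := pow_dvd_pow_of_dvd (two_dvd_b P) 5
  have h5 : P.b ^ 5 ∣ P.b ^ P.p := pow_dvd_pow _ P.hp5
  have : (32 : ℤ) = 2 ^ 5 := by norm_num
  rw [this]
  exact h2.trans h5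

theorem sixteen_dvd_b_pow (P : FreyPackage) : (16 : ℤ) ∣ P.b ^ P.p :=
  (by norm_num : (16 : ℤ) ∣ 32).trans (thirtytwo_dvd_b_pow P)

theorem four_dvd_a₂_num (P : FreyPackage) : (4 : ℤ) ∣ P.b ^ P.p - 1 - P.a ^ P.p := by
  have h1 := four_dvd_a_pow_add_one P
  have h2 : (4 : ℤ) ∣ P.b ^ P.p := (by norm_num : (4 : ℤ) ∣ 32).trans (thirtytwo_dvd_b_pow P)
  have : P.b ^ P.p - 1 - P.a ^ P.p = P.b ^ P.p - (P.a ^ P.p + 1) := by ring
  rw [this]
  exact dvd_sub h2 h1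

theorem sixteen_dvd_a₄_num (P : FreyPackage) : (16 : ℤ) ∣ -(P.a ^ P.p) * (P.b ^ P.p) :=
  Dvd.dvd.mul_left (sixteen_dvd_b_pow P) _

/-- The `a₂`-coefficient of the integral Frey curve, times `4`. -/
theorem four_mul_a₂ (P : FreyPackage) :
    4 * P.freyCurveInt.a₂ = P.b ^ P.p - 1 - P.a ^ P.p := by
  change 4 * ((P.b ^ P.p - 1 - P.a ^ P.p) / 4) = _
  exact Int.mul_ediv_cancel' (four_dvd_a₂_num P)

/-- The `a₄`-coefficient of the integral Frey curve, times `16`. -/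
theorem sixteen_mul_a₄ (P : FreyPackage) :
    16 * P.freyCurveInt.a₄ = -(P.a ^ P.p) * (P.b ^ P.p) := by
  change 16 * (-(P.a ^ P.p) * (P.b ^ P.p) / 16) = _
  exact Int.mul_ediv_cancel' (sixteen_dvd_a₄_num P)

theorem freyCurveInt_a₁ (P : FreyPackage) : P.freyCurveInt.a₁ = 1 := rfl
theorem freyCurveInt_a₃ (P : FreyPackage) : P.freyCurveInt.a₃ = 0 := rfl
theorem freyCurveInt_a₆ (P : FreyPackage) : P.freyCurveInt.a₆ = 0 := rfl

/-- The base change of the integral Frey curve to `ℚ` is the Frey curve. -/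
theorem freyCurveInt_map (P : FreyPackage) :
    P.freyCurveInt.map (Int.castRingHom ℚ) = P.freyCurve := by
  have h2 : ((P.freyCurveInt.a₂ : ℤ) : ℚ) = ((P.b : ℚ) ^ P.p - 1 - (P.a : ℚ) ^ P.p) / 4 := by
    have := four_mul_a₂ P
    have h : ((4 * P.freyCurveInt.a₂ : ℤ) : ℚ) = ((P.b ^ P.p - 1 - P.a ^ P.p : ℤ) : ℚ) := by
      rw [this]
    push_cast at h
    linarith
  have h4 : ((P.freyCurveInt.a₄ : ℤ) : ℚ) = -((P.a : ℚ) ^ P.p) * ((P.b : ℚ) ^ P.p) / 16 := by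
    have := sixteen_mul_a₄ P
    have h : ((16 * P.freyCurveInt.a₄ : ℤ) : ℚ) = ((-(P.a ^ P.p) * (P.b ^ P.p) : ℤ) : ℚ) := by
      rw [this]
    push_cast at h
    linarith
  ext
  · simp [WeierstrassCurve.map, FreyPackage.freyCurveInt, FreyPackage.freyCurve]
  · change ((P.freyCurveInt.a₂ : ℤ) : ℚ) = _
    rw [h2]; rfl
  · simp [WeierstrassCurve.map, FreyPackage.freyCurveInt, FreyPackage.freyCurve]
  · change ((P.freyCurveInt.a₄ : ℤ) : ℚ) = _
    rw [h4]; rfl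
  · simp [WeierstrassCurve.map, FreyPackage.freyCurveInt, FreyPackage.freyCurve]

/-- The integral Frey curve is an integral model of the Frey curve. -/
theorem freyCurveInt_isIntegralModelOf (P : FreyPackage) :
    P.freyCurveInt.IsIntegralModelOf P.freyCurve :=
  ⟨1, by rw [one_smul, freyCurveInt_map]⟩

/-- `c₄` of the integral Frey curve. -/
theorem freyCurveInt_c₄ (P : FreyPackage) :
    P.freyCurveInt.c₄ =
      (P.a ^ P.p) ^ 2 + (P.a ^ P.p) * (P.b ^ P.p) + (P.b ^ P.p) ^ 2 := by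
  have h2 := four_mul_a₂ P
  have h4 := sixteen_mul_a₄ P
  simp only [WeierstrassCurve.c₄, WeierstrassCurve.b₂, WeierstrassCurve.b₄,
    freyCurveInt_a₁, freyCurveInt_a₃]
  linear_combination (4 * P.freyCurveInt.a₂ + P.b ^ P.p - P.a ^ P.p + 1) * h2 - 3 * h4

/-- `Δ` of the integral Frey curve. -/
theorem freyCurveInt_Δ (P : FreyPackage) :
    P.freyCurveInt.Δ = P.freyCurveInt.a₄ ^ 2 * (P.c ^ P.p) ^ 2 := by
  have h2 := four_mul_a₂ P
  have h4 := sixteen_mul_a₄ P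
  have hc : P.c ^ P.p = P.a ^ P.p + P.b ^ P.p := P.hFLT.symm
  rw [hc]
  simp only [WeierstrassCurve.Δ, WeierstrassCurve.b₂, WeierstrassCurve.b₄, WeierstrassCurve.b₆,
    WeierstrassCurve.b₈, freyCurveInt_a₁, freyCurveInt_a₃, freyCurveInt_a₆]
  linear_combination
    (P.freyCurveInt.a₄ ^ 2 * (4 * P.freyCurveInt.a₂ + P.b ^ P.p - P.a ^ P.p + 1)) * h2
      - (4 * P.freyCurveInt.a₄ ^ 2) * h4

theorem freyCurveInt_a₄_ne_zero (P : FreyPackage) : P.freyCurveInt.a₄ ≠ 0 := by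
  intro h
  have h4 := sixteen_mul_a₄ P
  rw [h, mul_zero] at h4
  have ha : P.a ^ P.p ≠ 0 := pow_ne_zero _ P.ha0
  have hb : P.b ^ P.p ≠ 0 := pow_ne_zero _ P.hb0
  exact mul_ne_zero (neg_ne_zero.mpr ha) hb h4.symm

theorem freyCurveInt_Δ_ne_zero (P : FreyPackage) : P.freyCurveInt.Δ ≠ 0 := by
  rw [freyCurveInt_Δ]
  exact mul_ne_zero (pow_ne_zero _ (freyCurveInt_a₄_ne_zero P))
    (pow_ne_zero _ (pow_ne_zero _ P.hc0))

theorem isCoprime_a_pow_b_pow (P : FreyPackage) : IsCoprime (P.a ^ P.p) (P.b ^ P.p) := by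
  have h : IsCoprime P.a P.b := by
    rw [Int.isCoprime_iff_gcd_eq_one]
    have h1 := P.hgcdab
    rw [← Int.coe_gcd] at h1
    exact_mod_cast h1
  exact h.pow

/-- The integral Frey curve is a semistable model. -/
theorem freyCurveInt_isSemistableModel (P : FreyPackage) : P.freyCurveInt.IsSemistableModel := by
  intro q hq hqΔ hqc₄
  have hqp : Prime (q : ℤ) := Nat.prime_iff_prime_int.mp hq
  have hcop := isCoprime_a_pow_b_pow P
  have hnot : ¬ ((q : ℤ) ∣ P.a ^ P.p ∧ (q : ℤ) ∣ P.b ^ P.p) := by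
    rintro ⟨h1, h2⟩
    exact hqp.not_isUnit (hcop.isUnit_of_dvd' h1 h2)
  rw [freyCurveInt_c₄] at hqc₄
  rw [freyCurveInt_Δ] at hqΔ
  have hc : P.c ^ P.p = P.a ^ P.p + P.b ^ P.p := P.hFLT.symm
  -- in every case `q ∣ a^p * b^p`
  have hAB : (q : ℤ) ∣ (P.a ^ P.p) * (P.b ^ P.p) := by
    rcases hqp.dvd_or_dvd hqΔ with h | h
    · have h1 : (q : ℤ) ∣ P.freyCurveInt.a₄ := hqp.dvd_of_dvd_pow h
      have h2 : (q : ℤ) ∣ 16 * P.freyCurveInt.a₄ := Dvd.dvd.mul_left h1 _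
      rw [sixteen_mul_a₄] at h2
      have : (P.a ^ P.p) * (P.b ^ P.p) = -(-(P.a ^ P.p) * (P.b ^ P.p)) := by ring
      rw [this]
      exact (dvd_neg).mpr h2
    · have h1 : (q : ℤ) ∣ P.c ^ P.p := hqp.dvd_of_dvd_pow h
      rw [hc] at h1
      have h2 : (q : ℤ) ∣ (P.a ^ P.p + P.b ^ P.p) * (P.a ^ P.p + P.b ^ P.p) :=
        Dvd.dvd.mul_left h1 _
      have : (P.a ^ P.p) * (P.b ^ P.p) =
          (P.a ^ P.p + P.b ^ P.p) * (P.a ^ P.p + P.b ^ P.p) -
            ((P.a ^ P.p) ^ 2 + (P.a ^ P.p) * (P.b ^ P.p) + (P.b ^ P.p) ^ 2) := by ring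
      rw [this]
      exact dvd_sub h2 hqc₄
  rcases hqp.dvd_or_dvd hAB with hA | hB
  · -- `q ∣ a^p`, so `q ∣ (b^p)^2`
    have h1 : (q : ℤ) ∣ (P.a ^ P.p) * (P.a ^ P.p + P.b ^ P.p) := Dvd.dvd.mul_right hA _
    have h2 : (q : ℤ) ∣ (P.b ^ P.p) ^ 2 := by
      have : (P.b ^ P.p) ^ 2 =
          ((P.a ^ P.p) ^ 2 + (P.a ^ P.p) * (P.b ^ P.p) + (P.b ^ P.p) ^ 2) -
            (P.a ^ P.p) * (P.a ^ P.p + P.b ^ P.p) := by ring
      rw [this]
      exact dvd_sub hqc₄ h1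
    exact hnot ⟨hA, hqp.dvd_of_dvd_pow h2⟩
  · have h1 : (q : ℤ) ∣ (P.b ^ P.p) * (P.a ^ P.p + P.b ^ P.p) := Dvd.dvd.mul_right hB _
    have h2 : (q : ℤ) ∣ (P.a ^ P.p) ^ 2 := by
      have : (P.a ^ P.p) ^ 2 =
          ((P.a ^ P.p) ^ 2 + (P.a ^ P.p) * (P.b ^ P.p) + (P.b ^ P.p) ^ 2) -
            (P.b ^ P.p) * (P.a ^ P.p + P.b ^ P.p) := by ring
      rw [this]
      exact dvd_sub hqc₄ h1
    exact hnot ⟨hqp.dvd_of_dvd_pow h2, hB⟩

/-- **Reduction of S04 to semistable modularity (S60).**  If every semistable integral Weierstrass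
curve with nonzero discriminant is modular, then the Frey curve is modular. -/
theorem freyCurve_isModular_of_semistable_modularity
    (h60 : ∀ W : WeierstrassCurve ℤ, W.Δ ≠ 0 → W.IsSemistableModel →
      (W.map (Int.castRingHom ℚ)).IsModular)
    (P : FreyPackage) : P.freyCurve.IsModular := by
  have h := h60 P.freyCurveInt (freyCurveInt_Δ_ne_zero P) (freyCurveInt_isSemistableModel P)
  rwa [freyCurveInt_map] at h

end Fermat.Agent.S04.FreyIntegral
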